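/-
S15lib / Cusp / LaurentPlace (helper1).  Project E, block CUSP.

A field embedding `q : F →+* K((t))` which is the identity on constants and hits an element of
order one defines a place of `F / K`, and the order function of this place is the order of the
Laurent expansion.
-/
import Mathlib
import Fermat.Prelude.Def_AlgebraicCurve_DivisorClassGroup
import Fermat.Agent.S29lib.D.InfPlace

set_option autoImplicit false
set_option linter.unusedSectionVars false

noncomputable section

namespace Fermat.Agent.S15lib.Cusp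

open AlgebraicCurve

variable {K F : Type*} [Field K] [Field F] [Algebra K F]
  (q : F →+* LaurentSeries K)

/-- the order of the expansion -/
def lOrd (f : F) : ℤ := (q f).order

lemma q_ne_zero {f : F} (hf : f ≠ 0) : q f ≠ 0 := (map_ne_zero q).2 hf

lemma lOrd_mul {f g : F} (hf : f ≠ 0) (hg : g ≠ 0) : lOrd q (f * g) = lOrd q f + lOrd q g := by
  unfold lOrd
  rw [map_mul, HahnSeries.order_mul (q_ne_zero q hf) (q_ne_zero q hg)]

lemma lOrd_one : lOrd q 1 = 0 := by
  unfold lOrd
  rw [map_one, HahnSeries.order_one]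

lemma lOrd_inv {f : F} (hf : f ≠ 0) : lOrd q f⁻¹ = -lOrd q f := by
  have := lOrd_mul q hf (inv_ne_zero hf)
  rw [mul_inv_cancel₀ hf, lOrd_one] at this
  omega

lemma lOrd_div {f g : F} (hf : f ≠ 0) (hg : g ≠ 0) : lOrd q (f / g) = lOrd q f - lOrd q g := by
  rw [div_eq_mul_inv, lOrd_mul q hf (inv_ne_zero hg), lOrd_inv q hg]
  ring

lemma lOrd_zpow {f : F} (hf : f ≠ 0) (n : ℤ) : lOrd q (f ^ n) = n * lOrd q f := by
  induction n using Int.induction_on with
  | zero => simp [lOrd_one]
  | succ n ih =>
    rw [zpow_add_one₀ hf, lOrd_mul q (zpow_ne_zero _ hf) hf, ih]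
    ring
  | pred n ih =>
    rw [zpow_sub_one₀ hf, lOrd_mul q (zpow_ne_zero _ hf) (inv_ne_zero hf), ih, lOrd_inv q hf]
    ring

/-- the valuation ring of the expansion -/
def lVS : ValuationSubring F where
  carrier := {f | 0 ≤ lOrd q f}
  mul_mem' := by
    intro a b ha hb
    by_cases ha0 : a = 0
    · simp [ha0, lOrd]
    by_cases hb0 : b = 0
    · simp [hb0, lOrd]
    show 0 ≤ lOrd q (a * b)
    rw [lOrd_mul q ha0 hb0]
    exact add_nonneg ha hb
  one_mem' := by
    show 0 ≤ lOrd q 1
    rw [lOrd_one]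
  add_mem' := by
    intro a b ha hb
    show 0 ≤ lOrd q (a + b)
    by_cases hab : a + b = 0
    · simp [hab, lOrd]
    unfold lOrd
    rw [map_add]
    have hab' : q a + q b ≠ 0 := by
      rw [← map_add]; exact q_ne_zero q hab
    exact le_trans (le_min ha hb) (HahnSeries.min_order_le_order_add hab')
  zero_mem' := by
    show 0 ≤ lOrd q 0
    simp [lOrd]
  neg_mem' := by
    intro a ha
    show 0 ≤ lOrd q (-a)
    unfold lOrd
    rw [map_neg, HahnSeries.order_neg]
    exact ha
  mem_or_inv_mem' := by
    intro a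
    by_cases ha0 : a = 0
    · left
      show 0 ≤ lOrd q a
      rw [ha0]
      simp [lOrd]
    rcases le_total 0 (lOrd q a) with h | h
    · exact Or.inl h
    · right
      show 0 ≤ lOrd q a⁻¹
      rw [lOrd_inv q ha0]
      omega

lemma mem_lVS {f : F} : f ∈ lVS q ↔ 0 ≤ lOrd q f := Iff.rfl

variable (hC : ∀ c : K, q (algebraMap K F c) = HahnSeries.C c)

include hC in
lemma lOrd_algebraMap (c : K) : lOrd q (algebraMap K F c) = 0 := by
  unfold lOrd
  rw [hC, HahnSeries.order_C]

/-- **the place of a Laurent expansion** -/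
def lPlace (t : F) (ht : lOrd q t = 1) : Place K F where
  toValuationSubring := lVS q
  algebraMap_mem' := fun c => by
    rw [mem_lVS, lOrd_algebraMap q hC]
  ne_top' := by
    intro htop
    have ht0 : t ≠ 0 := by
      rintro rfl
      simp [lOrd] at ht
    have : t⁻¹ ∈ lVS q := htop ▸ ValuationSubring.mem_top _
    rw [mem_lVS, lOrd_inv q ht0, ht] at this
    omega
  isPrincipalIdealRing' :=
    Fermat.Agent.S29lib.D.isPrincipalIdealRing_of_ord (lVS q) (lOrd q) (fun _ _ => Iff.rfl)
      (fun _ _ h1 h2 => lOrd_div q h1 h2)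

@[simp] lemma lPlace_toValuationSubring (t : F) (ht : lOrd q t = 1) :
    (lPlace q hC t ht).toValuationSubring = lVS q := rfl

/-- **the order function of the place is the order of the expansion** -/
theorem ord_lPlace (t : F) (ht : lOrd q t = 1) (f : F) :
    (lPlace q hC t ht).ord f = (q f).order := by
  set P := lPlace q hC t ht with hP
  by_cases hf : f = 0
  · subst hf
    simp
  have ht0 : t ≠ 0 := by
    rintro rfl
    simp [lOrd] at ht
  have htmem : t ∈ P.toValuationSubring := by
    show 0 ≤ lOrd q t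
    omega
  -- `t` is irreducible in the valuation ring
  have hunit : ∀ a : P.toValuationSubring, IsUnit a ↔ lOrd q (a : F) = 0 ∧ (a : F) ≠ 0 := by
    intro a
    constructor
    · intro ha
      have ha0 : (a : F) ≠ 0 := by
        intro h
        exact ha.ne_zero (Subtype.ext h)
      refine ⟨?_, ha0⟩
      obtain ⟨b, hb⟩ := ha.exists_right_inv
      have hb' : (a : F) * (b : F) = 1 := by
        have := congrArg Subtype.val hb
        simpa using this
      have hb0 : (b : F) ≠ 0 := by
        intro h
        rw [h, mul_zero] at hb'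
        exact zero_ne_one hb'
      have h1 := lOrd_mul q ha0 hb0
      rw [hb', lOrd_one] at h1
      have h2 : 0 ≤ lOrd q (a : F) := a.2
      have h3 : 0 ≤ lOrd q (b : F) := b.2
      omega
    · rintro ⟨ha, ha0⟩
      have hinv : (a : F)⁻¹ ∈ P.toValuationSubring := by
        show 0 ≤ lOrd q (a : F)⁻¹
        rw [lOrd_inv q ha0, ha]
        simp
      refine isUnit_iff_exists_inv.mpr ⟨⟨(a : F)⁻¹, hinv⟩, ?_⟩
      apply Subtype.ext
      show (a : F) * (a : F)⁻¹ = 1
      exact mul_inv_cancel₀ ha0
  set π : P.toValuationSubring := ⟨t, htmem⟩ with hπ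
  have hπirr : Irreducible π := by
    refine ⟨?_, ?_⟩
    · rw [hunit]
      rintro ⟨h, -⟩
      rw [show ((π : P.toValuationSubring) : F) = t from rfl, ht] at h
      omega
    · intro a b hab
      have hab' : t = (a : F) * (b : F) := by
        have := congrArg Subtype.val hab
        simpa using this
      have ha0 : (a : F) ≠ 0 := by
        intro h
        rw [h, zero_mul] at hab'
        exact ht0 hab'
      have hb0 : (b : F) ≠ 0 := by
        intro h
        rw [h, mul_zero] at hab'
        exact ht0 hab'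
      have h1 := lOrd_mul q ha0 hb0
      rw [← hab', ht] at h1
      have h2 : 0 ≤ lOrd q (a : F) := a.2
      have h3 : 0 ≤ lOrd q (b : F) := b.2
      rcases (show lOrd q (a : F) = 0 ∨ lOrd q (b : F) = 0 by omega) with h | h
      · exact Or.inl ((hunit a).mpr ⟨h, ha0⟩)
      · exact Or.inr ((hunit b).mpr ⟨h, hb0⟩)
  -- `f = u t^n`
  set n : ℤ := lOrd q f with hn
  have hu0 : f * t ^ (-n) ≠ 0 := mul_ne_zero hf (zpow_ne_zero _ ht0)
  have hu_ord : lOrd q (f * t ^ (-n)) = 0 := by
    rw [lOrd_mul q hf (zpow_ne_zero _ ht0), lOrd_zpow q ht0, ht]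
    omega
  have humem : f * t ^ (-n) ∈ P.toValuationSubring := by
    show 0 ≤ lOrd q (f * t ^ (-n))
    rw [hu_ord]
  obtain ⟨u, hu⟩ := ((hunit ⟨f * t ^ (-n), humem⟩).mpr ⟨hu_ord, hu0⟩)
  have hf_eq : f = ((u : P.toValuationSubring) : F) * ((π : F) ^ n) := by
    rw [hu]
    show f = f * t ^ (-n) * t ^ n
    rw [mul_assoc, ← zpow_add₀ ht0]
    simp
  calc P.ord f = P.ord (((u : P.toValuationSubring) : F) * ((π : F) ^ n)) := by rw [← hf_eq]
    _ = n := P.ord_unit_smul_zpow u hπirr n

end Fermat.Agent.S15lib.Cusp
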