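/-
S15lib / Cusp / Inf (helper1).  Project E, block CUSP.

The cusp `∞` of `X₀(N)` over `ℚ̄` as a place of `FBar N` (`pinfBar N` of `S36lib.J`): its order
function is the order of the `q`-expansion; `j` has a simple pole there; it is Galois-fixed.
-/
import Mathlib
import Fermat.Agent.S15lib.Iface
import Fermat.Agent.S15lib.Cusp.LaurentPlace
import Fermat.Agent.S36lib.J.ClassDescentBar
import Fermat.Agent.S28lib.Series

set_option autoImplicit false
set_option linter.unusedSectionVars false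

noncomputable section

namespace Fermat.Agent.S15lib.Cusp

open AlgebraicCurve ModularCurve

local notation "Qb" => AlgebraicClosure ℚ
local notation "GQ" => (AlgebraicClosure ℚ ≃ₐ[ℚ] AlgebraicClosure ℚ)

variable (N : ℕ) [NeZero N]

/-- the inclusion `FBar N ⊆ ℚ̄((q))` -/
def qEmb : FB N →+* LaurentSeries Qb := (modularFunctionFieldBar N).val.toRingHom

@[simp] lemma qEmb_apply (f : FB N) : qEmb N f = (f : LaurentSeries Qb) := rfl

lemma qEmb_algebraMap (c : Qb) : qEmb N (algebraMap Qb (FB N) c) = HahnSeries.C c := by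
  show algebraMap Qb (LaurentSeries Qb) c = HahnSeries.C c
  rw [algebraMap_laurentSeries_eq_single]
  rfl

lemma coe_jB : ((jB N : FB N) : LaurentSeries Qb) = jqModC Qb :=
  Fermat.Agent.ProgramR.BarField.coe_jBar Qb N

lemma jB_ne_zero : jB N ≠ 0 := Fermat.Agent.ProgramR.BarField.jBar_ne_zero N

lemma lOrd_jB : lOrd (qEmb N) (jB N) = -1 := by
  unfold lOrd
  rw [qEmb_apply, coe_jB]
  exact Fermat.Agent.S28lib.order_jqModC Qb

lemma lOrd_jB_inv : lOrd (qEmb N) (jB N)⁻¹ = 1 := by
  rw [lOrd_inv _ (jB_ne_zero N), lOrd_jB]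
  norm_num

/-- **the cusp `∞`** -/
def cInf : Place Qb (FB N) := lPlace (qEmb N) (qEmb_algebraMap N) (jB N)⁻¹ (lOrd_jB_inv N)

lemma cInf_eq_pinfBar : cInf N = Fermat.Agent.S36lib.J.pinfBar N :=
  Place.ext (ValuationSubring.ext (A := (cInf N).toValuationSubring)
    (B := (Fermat.Agent.S36lib.J.pinfBar N).toValuationSubring) fun _ => Iff.rfl)

/-- the order at `∞` is the order of the `q`-expansion -/
theorem ord_cInf (f : FB N) : (cInf N).ord f = (f : LaurentSeries Qb).order :=
  ord_lPlace (qEmb N) (qEmb_algebraMap N) _ _ f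

theorem isCuspInf_cInf : IsCuspInf N (cInf N) := by
  unfold IsCuspInf
  rw [ord_cInf, coe_jB]
  exact Fermat.Agent.S28lib.order_jqModC Qb

/-- the cusp `∞` is Galois-fixed -/
theorem gal_smul_cInf (σ : GQ) : gal N σ • cInf N = cInf N := by
  rw [cInf_eq_pinfBar]
  exact Fermat.Agent.S36lib.J.galAutBar_smul_pinfBar N σ

lemma mem_cInf_iff (f : FB N) :
    f ∈ (cInf N).toValuationSubring ↔ 0 ≤ (f : LaurentSeries Qb).order := Iff.rfl

end Fermat.Agent.S15lib.Cusp
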