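/-
S15lib / Cusp / Zero (helper1).  Project E, block CUSP.

The Atkin–Lehner involution `w` of `FBar p` (`LSb.Val.wq` at `M = 1`, transported along
`1 * p = p`) and the cusp `0 := w • ∞` of `X₀(p)`: `ord₀ f = ord_∞ (w f)`, `j` has a pole of order
`p` there, and the cusp is Galois-fixed.
-/
import Mathlib
import Fermat.Agent.S15lib.Cusp.Inf
import Fermat.Agent.LSb.Val.Wq

set_option autoImplicit false
set_option linter.unusedSectionVars false
set_option linter.style.haveILetI false

noncomputable section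

namespace Fermat.Agent.S15lib.Cusp

open AlgebraicCurve ModularCurve

local notation "Qb" => AlgebraicClosure ℚ
local notation "GQ" => (AlgebraicClosure ℚ ≃ₐ[ℚ] AlgebraicClosure ℚ)

/-- the `q`-expansion of `j(q^d)` has order `-d` -/
lemma order_coe_jd (N d : ℕ) [NeZero d] (hd : d ∣ N) :
    ((Fermat.Agent.LSb.Val.jd N d hd : FB N) : LaurentSeries Qb).order = -(d : ℤ) := by
  rw [Fermat.Agent.LSb.Val.coe_jd]
  show (coeffMap (algebraMap ℚ Qb) (qExpand ℚ d jq)).order = -(d : ℤ)
  rw [Fermat.Agent.S36lib.J.order_coeffMap, Fermat.Agent.S28lib.order_qExpand]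
  have h : (jq : LaurentSeries ℚ).order = -1 := by
    have h1 := Fermat.Agent.S28lib.order_jqModC ℚ
    have h2 : coeffEmb ℚ jq = jqModC ℚ := Fermat.Agent.ProgramR.BarField.coeffEmb_jq
    rw [← h2] at h1
    have h3 : (coeffEmb ℚ jq).order = (jq : LaurentSeries ℚ).order :=
      Fermat.Agent.S36lib.J.order_coeffMap _ _
    rw [← h3]
    exact h1
  rw [h]
  ring

/-- the Atkin–Lehner involution at a level `N = 1 * p` -/
theorem exists_AL_aux (p : ℕ) (hp : p.Prime) (N : ℕ) (hN : N = 1 * p) [NeZero N] :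
    ∃ w : FB N ≃ₐ[Qb] FB N, (∀ f, w (w f) = f) ∧
      ((w (jB N) : FB N) : LaurentSeries Qb).order = -(N : ℤ) ∧
      ∀ (σ : GQ) (f : FB N), w (arithmeticRingAut (modularFunctionFieldFull N) σ f) =
        arithmeticRingAut (modularFunctionFieldFull N) σ (w f) := by
  subst hN
  haveI : NeZero p := ⟨hp.ne_zero⟩
  have hqM : ¬ p ∣ 1 := fun h => hp.one_lt.ne' (Nat.dvd_one.mp h)
  refine ⟨Fermat.Agent.LSb.Val.wq 1 p hp hqM, Fermat.Agent.LSb.Val.wq_wq 1 p hp hqM, ?_,
    Fermat.Agent.LSb.Val.wq_arithmeticRingAut 1 p hp hqM⟩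
  have h1 := Fermat.Agent.LSb.Val.wq_jd 1 p hp hqM 1 (dvd_refl 1)
  have h2 : jB (1 * p) = Fermat.Agent.LSb.Val.jd (1 * p) 1 ((dvd_refl 1).trans (Dvd.intro _ rfl)) :=
    rfl
  rw [h2, h1, order_coe_jd]

variable (p : ℕ) [NeZero p] (hp : p.Prime)

include hp in
theorem exists_AL :
    ∃ w : FB p ≃ₐ[Qb] FB p, (∀ f, w (w f) = f) ∧
      ((w (jB p) : FB p) : LaurentSeries Qb).order = -(p : ℤ) ∧
      ∀ (σ : GQ) (f : FB p), w (arithmeticRingAut (modularFunctionFieldFull p) σ f) =
        arithmeticRingAut (modularFunctionFieldFull p) σ (w f) :=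
  exists_AL_aux p hp p (one_mul p).symm

/-- **the Atkin–Lehner involution of `ℚ̄(X₀(p))`** -/
def wAL : FB p ≃ₐ[Qb] FB p := (exists_AL p hp).choose

theorem wAL_wAL (f : FB p) : wAL p hp (wAL p hp f) = f := (exists_AL p hp).choose_spec.1 f

theorem order_wAL_jB : ((wAL p hp (jB p) : FB p) : LaurentSeries Qb).order = -(p : ℤ) :=
  (exists_AL p hp).choose_spec.2.1

theorem wAL_gal (σ : GQ) (f : FB p) : wAL p hp (gal p σ • f) = gal p σ • wAL p hp f :=
  (exists_AL p hp).choose_spec.2.2 σ f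

theorem wAL_symm : (wAL p hp).symm = wAL p hp := by
  refine AlgEquiv.ext fun f => ?_
  apply (wAL p hp).injective
  rw [AlgEquiv.apply_symm_apply, wAL_wAL]

/-- **the cusp `0`** -/
def cZero : Place Qb (FB p) := wAL p hp • cInf p

/-- the order at the cusp `0` is the order at `∞` of the Atkin–Lehner transform -/
theorem ord_cZero (f : FB p) : (cZero p hp).ord f = ((wAL p hp f : FB p) : LaurentSeries Qb).order := by
  have h := Place.ord_smul (wAL p hp) (cInf p) (wAL p hp f)
  rw [wAL_wAL] at h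
  rw [cZero, h, ord_cInf]

theorem isCuspZero_cZero : IsCuspZero p (cZero p hp) := by
  unfold IsCuspZero
  rw [ord_cZero, order_wAL_jB]

lemma mem_cZero_iff (f : FB p) :
    f ∈ (cZero p hp).toValuationSubring ↔ 0 ≤ ((wAL p hp f : FB p) : LaurentSeries Qb).order := by
  rw [cZero, Place.smul_toValuationSubring, ValuationSubring.mem_pointwise_smul_iff_inv_smul_mem]
  have h : (wAL p hp)⁻¹ • f = wAL p hp f := by
    show (wAL p hp).symm f = wAL p hp f
    rw [wAL_symm]
  rw [h]
  exact mem_cInf_iff p _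

/-- the cusp `0` is Galois-fixed -/
theorem gal_smul_cZero (σ : GQ) : gal p σ • cZero p hp = cZero p hp := by
  apply Place.ext
  ext f
  rw [SemilinearAut.smul_toValuationSubring,
    ValuationSubring.mem_pointwise_smul_iff_inv_smul_mem, mem_cZero_iff, mem_cZero_iff]
  have h1 : (gal p σ)⁻¹ = gal p σ⁻¹ :=
    (map_inv (arithmeticGalois (modularFunctionFieldFull p)) σ).symm
  rw [h1, wAL_gal, coe_arithmeticGalois_smul, Fermat.Agent.S36lib.J.order_coeffMap]

end Fermat.Agent.S15lib.Cusp
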