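/-
S15lib / Cusp / Polar (helper1).  Project E, block CUSP.

The poles of `j` on `X₀(p)` are exactly the two cusps `∞` and `0`
(`∑_{poles} -ord j = [FBar p : ℚ̄(j)] = p + 1 = 1 + p`).
-/
import Mathlib
import Fermat.Agent.S15lib.Cusp.Zero
import Fermat.Agent.ProgramR.FunctionField.AlgClosed
import Fermat.Agent.ProgramR.BarField.Degree

set_option autoImplicit false
set_option linter.unusedSectionVars false
set_option linter.style.haveILetI false

noncomputable section

namespace Fermat.Agent.S15lib.Cusp

open AlgebraicCurve ModularCurve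

local notation "Qb" => AlgebraicClosure ℚ
local notation "GQ" => (AlgebraicClosure ℚ ≃ₐ[ℚ] AlgebraicClosure ℚ)

theorem dedekindPsi_prime {p : ℕ} (hp : p.Prime) : dedekindPsi p = p + 1 := by
  unfold dedekindPsi
  rw [hp.divisors]
  have h1 : (1 : ℕ) ≠ p := hp.one_lt.ne
  rw [Finset.filter_true_of_mem, Finset.sum_pair h1, Nat.div_one, Nat.div_self hp.pos]
  intro d hd
  rw [Finset.mem_insert, Finset.mem_singleton] at hd
  rcases hd with rfl | rfl
  · exact squarefree_one
  · exact hp.prime.squarefree

variable (p : ℕ) [NeZero p] (hp : p.Prime)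

lemma transcendental_jB : Transcendental Qb (jB p) :=
  Fermat.Agent.ProgramR.BarField.transcendental_jBar Qb p

include hp in
lemma cInf_ne_cZero : cInf p ≠ cZero p hp := by
  intro h
  have h1 : (cInf p).ord (jB p) = -1 := isCuspInf_cInf p
  have h2 : (cZero p hp).ord (jB p) = -(p : ℤ) := isCuspZero_cZero p hp
  rw [h, h2] at h1
  have := hp.one_lt
  omega

/-- **the poles of `j` are the two cusps** -/
theorem eq_cusp_of_ord_jB_neg (v : Place Qb (FB p)) (hv : v.ord (jB p) < 0) :
    v = cInf p ∨ v = cZero p hp := by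
  classical
  by_contra hcon
  push Not at hcon
  obtain ⟨hv1, hv2⟩ := hcon
  have hx := transcendental_jB p
  set S := (Fermat.Agent.ProgramR.FF.finite_poles (K := Qb) (jB p) hx).toFinset with hS
  have hmem : ∀ w, w ∈ S ↔ w.ord (jB p) < 0 := fun w => by
    rw [hS, Set.Finite.mem_toFinset]
    rfl
  have hsum := Fermat.Agent.ProgramR.FF.sum_poles_ord (K := Qb) (jB p) hx S hmem
  rw [Fermat.Agent.ProgramR.BarField.finrank_jBar_Qbar, dedekindPsi_prime hp] at hsum
  have h1 : (cInf p).ord (jB p) = -1 := isCuspInf_cInf p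
  have h2 : (cZero p hp).ord (jB p) = -(p : ℤ) := isCuspZero_cZero p hp
  have hp1 := hp.one_lt
  have hsub : ({cInf p, cZero p hp, v} : Finset (Place Qb (FB p))) ⊆ S := by
    intro w hw
    rw [Finset.mem_insert, Finset.mem_insert, Finset.mem_singleton] at hw
    rw [hmem]
    rcases hw with rfl | rfl | rfl
    · rw [h1]; omega
    · rw [h2]; omega
    · exact hv
  have hle := Finset.sum_le_sum_of_subset_of_nonneg (f := fun w => -w.ord (jB p)) hsub
    (fun w hw _ => by
      have := (hmem w).1 hw
      show 0 ≤ -w.ord (jB p)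
      omega)
  rw [hsum, Finset.sum_insert (by
      rw [Finset.mem_insert, Finset.mem_singleton, not_or]
      exact ⟨cInf_ne_cZero p hp, fun h => hv1 h.symm⟩),
    Finset.sum_pair (fun h => hv2 h.symm), h1, h2] at hle
  push_cast at hle
  omega

/-- a function regular and nonvanishing... : the order of `f` vanishes away from the cusps as soon as
`f` and `f⁻¹` are regular away from the poles of `j` -/
theorem ord_eq_zero_of_regular {f : FB p} (v : Place Qb (FB p))
    (hf : f ∈ v.toValuationSubring) (hf' : f⁻¹ ∈ v.toValuationSubring) : v.ord f = 0 := by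
  have h1 := (Fermat.Agent.ProgramR.FF.mem_iff_ord_nonneg v f).1 hf
  have h2 := (Fermat.Agent.ProgramR.FF.mem_iff_ord_nonneg v f⁻¹).1 hf'
  rw [v.ord_inv] at h2
  omega

end Fermat.Agent.S15lib.Cusp
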