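/-
S15lib / Cusp / Unit (helper1).  Project E, block CUSP.

Cuspidal functions on `X₀(p)`: a function `f` with `f, f⁻¹` regular off the poles of `j` has divisor
`(-ord_∞ f) ((0) - (∞))`.  Applied to the modular unit `Δ(q)/Δ(q^p)` (`LSb.Unit.X0F`, order `1 - p`
at `∞`): `(p - 1) [(0) - (∞)] = 0`.
-/
import Mathlib
import Fermat.Agent.S15lib.Cusp.Polar
import Fermat.Agent.LSb.Unit.Modular
import Fermat.Agent.S37lib.HeckeInst.Basic

set_option autoImplicit false
set_option linter.unusedSectionVars false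
set_option linter.style.haveILetI false

noncomputable section

namespace Fermat.Agent.S15lib.Cusp

open AlgebraicCurve ModularCurve
open Fermat.Agent.LSb.Unit (regAway mem_regAway)

local notation "Qb" => AlgebraicClosure ℚ
local notation "GQ" => (AlgebraicClosure ℚ ≃ₐ[ℚ] AlgebraicClosure ℚ)

variable (p : ℕ) [NeZero p] (hp : p.Prime)

/-- the divisor `(0) - (∞)` -/
def D0 : Divisor Qb (FB p) := Finsupp.single (cZero p hp) (1 : ℤ) - Finsupp.single (cInf p) 1

lemma D0_cInf : D0 p hp (cInf p) = -1 := by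
  rw [D0, Finsupp.sub_apply, Finsupp.single_eq_of_ne (cInf_ne_cZero p hp),
    Finsupp.single_eq_same]
  norm_num

lemma D0_cZero : D0 p hp (cZero p hp) = 1 := by
  rw [D0, Finsupp.sub_apply, Finsupp.single_eq_same,
    Finsupp.single_eq_of_ne (cInf_ne_cZero p hp).symm]
  norm_num

lemma D0_of_ne {v : Place Qb (FB p)} (h1 : v ≠ cInf p) (h2 : v ≠ cZero p hp) : D0 p hp v = 0 := by
  rw [D0, Finsupp.sub_apply, Finsupp.single_eq_of_ne h2, Finsupp.single_eq_of_ne h1]
  norm_num

lemma D0_mem_degZero : D0 p hp ∈ Divisor.degZero (K := Qb) (F := FB p) := by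
  rw [Divisor.mem_degZero, D0, map_sub, Divisor.degree_single, Divisor.degree_single,
    Fermat.Agent.S37lib.HeckeInst.deg_eq_one p, Fermat.Agent.S37lib.HeckeInst.deg_eq_one p,
    sub_self]

lemma ptClass_cusps : ptClass (cZero p hp) (cInf p) = Pic0.mk ⟨D0 p hp, D0_mem_degZero p hp⟩ := by
  have h : (Finsupp.single (cZero p hp) (1 : ℤ) - Finsupp.single (cInf p) 1 : Divisor Qb (FB p)) ∈
      Divisor.degZero (K := Qb) (F := FB p) := D0_mem_degZero p hp
  rw [ptClass, dif_pos h]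
  rfl

/-- a function regular and invertible off the cusps has order `0` off the cusps -/
lemma ord_eq_zero_of_regAway {f : FB p} (hf : f ∈ regAway Qb (jB p))
    (hf' : f⁻¹ ∈ regAway Qb (jB p)) {v : Place Qb (FB p)} (h1 : v ≠ cInf p)
    (h2 : v ≠ cZero p hp) : v.ord f = 0 := by
  have hj : 0 ≤ v.ord (jB p) := by
    by_contra hneg
    push Not at hneg
    rcases eq_cusp_of_ord_jB_neg p hp v hneg with h | h
    · exact h1 h
    · exact h2 h
  have hjv : jB p ∈ v.toValuationSubring := (Fermat.Agent.ProgramR.FF.mem_iff_ord_nonneg v _).2 hj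
  exact ord_eq_zero_of_regular p v (hf v hjv) (hf' v hjv)

/-- **the divisor of a cuspidal function**: `div f = (-ord_∞ f) ((0) - (∞))`. -/
theorem cuspidal_div {f : FB p} (hf0 : f ≠ 0) (hf : f ∈ regAway Qb (jB p))
    (hf' : f⁻¹ ∈ regAway Qb (jB p)) (v : Place Qb (FB p)) :
    ((-(cInf p).ord f) • D0 p hp) v = v.ord f := by
  classical
  haveI := Fermat.Agent.S37lib.HeckeInst.hasPrincipalDivisors_FB p
  obtain ⟨D, hD, hdeg⟩ := HasPrincipalDivisors.exists_divisor (K := Qb) f hf0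
  have hDeq : D = Finsupp.single (cInf p) ((cInf p).ord f) +
      Finsupp.single (cZero p hp) ((cZero p hp).ord f) := by
    ext v
    rw [hD, Finsupp.add_apply]
    by_cases h1 : v = cInf p
    · subst h1
      rw [Finsupp.single_eq_same, Finsupp.single_eq_of_ne (cInf_ne_cZero p hp), add_zero]
    by_cases h2 : v = cZero p hp
    · subst h2
      rw [Finsupp.single_eq_same, Finsupp.single_eq_of_ne (cInf_ne_cZero p hp).symm, zero_add]
    rw [Finsupp.single_eq_of_ne h1, Finsupp.single_eq_of_ne h2,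
      ord_eq_zero_of_regAway p hp hf hf' h1 h2, add_zero]
  rw [hDeq, map_add, Divisor.degree_single, Divisor.degree_single,
    Fermat.Agent.S37lib.HeckeInst.deg_eq_one p, Fermat.Agent.S37lib.HeckeInst.deg_eq_one p] at hdeg
  have hb : (cZero p hp).ord f = -(cInf p).ord f := by
    push_cast at hdeg
    linarith
  rw [Finsupp.smul_apply, smul_eq_mul]
  by_cases h1 : v = cInf p
  · subst h1
    rw [D0_cInf]
    ring
  by_cases h2 : v = cZero p hp
  · subst h2
    rw [D0_cZero, hb]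
    ring
  rw [D0_of_ne p hp h1 h2, ord_eq_zero_of_regAway p hp hf hf' h1 h2, mul_zero]

/-- consequently `(-ord_∞ f) • [(0) - (∞)] = 0` -/
theorem zsmul_ptClass_eq_zero {f : FB p} (hf0 : f ≠ 0) (hf : f ∈ regAway Qb (jB p))
    (hf' : f⁻¹ ∈ regAway Qb (jB p)) :
    (-(cInf p).ord f) • ptClass (cZero p hp) (cInf p) = 0 := by
  rw [ptClass_cusps]
  have h : (-(cInf p).ord f) • (⟨D0 p hp, D0_mem_degZero p hp⟩ :
      Divisor.degZero (K := Qb) (F := FB p)) ∈
      (Divisor.principal (K := Qb) (F := FB p)).addSubgroupOf (Divisor.degZero (K := Qb) (F := FB p)) := by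
    rw [AddSubgroup.mem_addSubgroupOf]
    exact ⟨f, hf0, fun v => cuspidal_div p hp hf0 hf hf' v⟩
  have h2 := (QuotientAddGroup.eq_zero_iff _).2 h
  rw [← h2]
  rfl

/-! ### the modular unit -/

section Unit

/-- the modular unit `Δ(q)/Δ(q^p)` -/
def uX : FB p :=
  haveI : Fact p.Prime := ⟨hp⟩
  Fermat.Agent.LSb.Unit.X0F p p (dvd_refl p)

lemma uX_ne_zero : uX p hp ≠ 0 := by
  haveI : Fact p.Prime := ⟨hp⟩
  exact Fermat.Agent.LSb.Unit.X0F_ne_zero p p (dvd_refl p)

lemma uX_mem_regAway : uX p hp ∈ regAway Qb (jB p) := by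
  haveI : Fact p.Prime := ⟨hp⟩
  exact Fermat.Agent.LSb.Unit.X0F_mem_regAway p p (dvd_refl p)

lemma uX_inv_mem_regAway : (uX p hp)⁻¹ ∈ regAway Qb (jB p) := by
  haveI : Fact p.Prime := ⟨hp⟩
  exact Fermat.Agent.LSb.Unit.X0F_inv_mem_regAway p p (dvd_refl p)

include hp in
lemma order_X0 : (Fermat.Agent.LSb.Unit.X0 Qb p).order = 1 - (p : ℤ) := by
  haveI : Fact p.Prime := ⟨hp⟩
  have h := Fermat.Agent.LSb.Unit.X0_mul_nuQ p
  have h1 : Fermat.Agent.LSb.Unit.X0 Qb p ≠ 0 := fun h0 => by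
    rw [h0, zero_mul] at h
    exact zero_ne_one h
  have h2 := congrArg HahnSeries.order h
  rw [HahnSeries.order_mul h1 (Fermat.Agent.S28lib.nuQ_ne_zero Qb p),
    Fermat.Agent.S28lib.order_nuQ, HahnSeries.order_one] at h2
  omega

lemma ord_cInf_uX : (cInf p).ord (uX p hp) = 1 - (p : ℤ) := by
  rw [ord_cInf]
  exact order_X0 p hp

/-- **`(p - 1) [(0) - (∞)] = 0`** -/
theorem sub_one_nsmul_ptClass : (p - 1) • ptClass (cZero p hp) (cInf p) = 0 := by
  have h := zsmul_ptClass_eq_zero p hp (uX_ne_zero p hp) (uX_mem_regAway p hp)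
    (uX_inv_mem_regAway p hp)
  rw [ord_cInf_uX] at h
  have h1 : -(1 - (p : ℤ)) = ((p - 1 : ℕ) : ℤ) := by
    have := hp.one_lt
    omega
  rw [h1, natCast_zsmul] at h
  exact h

end Unit

end Fermat.Agent.S15lib.Cusp
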