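/-
S15lib / Cusp / Eis (helper1).  Project E, block CUSP.

The cuspidal class `c = [(0) - (∞)]` of `X₀(p)` is an Eisenstein eigenvector: `T_q c = (1 + q) c` for
primes `q ≠ p`.  With `u = Δ(q)/Δ(q^p)`, `div u = (p - 1) D₀`:  `T (div u) = div (N_α (β u))`, the norm
`g = N_α (β u)` is again a cuspidal function (`S36lib.Norm`), and its order at `∞` is
`(q + 1)(1 - p)` by the norm formula for `q`-expansions (`S37lib.ConjNorm.qExpand_norm_heckeBetaBar`).
Hence `(p - 1) T D₀ = (q + 1)(p - 1) D₀` as divisors.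
-/
import Mathlib
import Fermat.Agent.S15lib.Cusp.Unit
import Fermat.Agent.S37lib.ES.CorrDiv
import Fermat.Agent.S37lib.ConjNorm.Inst
import Fermat.Agent.S36lib.Norm.ChartNorm
import Fermat.Agent.S36lib.Fin.CuspInst
import Fermat.Agent.S29lib.H.TJ

set_option autoImplicit false
set_option linter.unusedSectionVars false
set_option linter.style.haveILetI false

noncomputable section

namespace Fermat.Agent.S15lib.Cusp

open AlgebraicCurve ModularCurve
open Fermat.Agent.LSb.Unit (regAway mem_regAway)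
open Fermat.Agent.S29lib.D (normAlong)
open Fermat.Agent.S37lib.HeckeInst

local notation "Qb" => AlgebraicClosure ℚ

/-- the order of a finite product of nonzero Laurent series -/
lemma order_prod {k : Type*} [Field k] {ι : Type*} (s : Finset ι) (f : ι → LaurentSeries k)
    (hf : ∀ i ∈ s, f i ≠ 0) : (∏ i ∈ s, f i).order = ∑ i ∈ s, (f i).order := by
  classical
  induction s using Finset.induction_on with
  | empty => simp
  | insert a s ha ih =>
    rw [Finset.prod_insert ha, Finset.sum_insert ha]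
    have h1 : f a ≠ 0 := hf a (Finset.mem_insert_self a s)
    have h2 : ∏ i ∈ s, f i ≠ 0 :=
      Finset.prod_ne_zero_iff.mpr fun i hi => hf i (Finset.mem_insert_of_mem hi)
    rw [HahnSeries.order_mul h1 h2, ih fun i hi => hf i (Finset.mem_insert_of_mem hi)]

variable (p : ℕ) [NeZero p] (hp : p.Prime) (q : ℕ) [NeZero q] (hq : q.Prime) (hqp : ¬ q ∣ p)

/-- the norm `g = N_α (β u)` of the modular unit -/
def gN : FB p := normAlong (heckeAlphaBar Qb p q) (heckeBetaBar Qb p q (uX p hp))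

lemma gN_ne_zero : gN p hp q ≠ 0 :=
  Fermat.Agent.S29lib.D.normAlong_ne_zero (heckeAlphaBar Qb p q)
    ((map_ne_zero (heckeBetaBar Qb p q)).mpr (uX_ne_zero p hp)) (finiteAlong_alpha p q)

include hq in
lemma gN_mem_regAway : gN p hp q ∈ regAway Qb (jB p) := by
  haveI : Fact q.Prime := ⟨hq⟩
  exact Fermat.Agent.S36lib.Norm.normAlong_alpha_mem_regAway p q
    (Fermat.Agent.S36lib.Fin.heckeBetaBar_mem_regAway p q (uX_mem_regAway p hp))

include hq in
lemma gN_inv_mem_regAway : (gN p hp q)⁻¹ ∈ regAway Qb (jB p) := by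
  haveI : Fact q.Prime := ⟨hq⟩
  have h1 : gN p hp q * normAlong (heckeAlphaBar Qb p q) (heckeBetaBar Qb p q (uX p hp)⁻¹) = 1 := by
    unfold gN normAlong
    letI := algebraAlong (heckeAlphaBar Qb p q)
    rw [← map_mul, ← map_mul, mul_inv_cancel₀ (uX_ne_zero p hp), map_one, map_one]
  rw [← eq_inv_of_mul_eq_one_right h1]
  exact Fermat.Agent.S36lib.Norm.normAlong_alpha_mem_regAway p q
    (Fermat.Agent.S36lib.Fin.heckeBetaBar_mem_regAway p q (uX_inv_mem_regAway p hp))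

include hq hqp in
/-- the order of `g` at `∞` -/
lemma ord_cInf_gN : (cInf p).ord (gN p hp q) = ((q : ℤ) + 1) * (1 - (p : ℤ)) := by
  haveI : Fact q.Prime := ⟨hq⟩
  set D := Fermat.Agent.S37lib.ConjNorm.modPolyDataQbar q with hD
  have h := Fermat.Agent.S37lib.ConjNorm.qExpand_norm_heckeBetaBar p q hq hqp D.prim (uX p hp)
  have hu : ((uX p hp : FB p) : LaurentSeries Qb) ≠ 0 := fun h0 =>
    uX_ne_zero p hp (Subtype.ext h0)
  have hou : ((uX p hp : FB p) : LaurentSeries Qb).order = 1 - (p : ℤ) := by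
    rw [← ord_cInf]
    exact ord_cInf_uX p hp
  have h2 := congrArg HahnSeries.order h
  rw [Fermat.Agent.S28lib.order_qExpand] at h2
  rw [HahnSeries.order_mul (Fermat.Agent.S28lib.qExpand_ne_zero _ hu)
    (Finset.prod_ne_zero_iff.mpr fun i _ => Fermat.Agent.S28lib.qExpand_ne_zero _
      (Fermat.Agent.S28lib.twist_ne_zero _ hu)), order_prod _ _ (fun i _ =>
      Fermat.Agent.S28lib.qExpand_ne_zero _ (Fermat.Agent.S28lib.twist_ne_zero _ hu))] at h2
  simp only [Fermat.Agent.S28lib.order_qExpand, Fermat.Agent.S28lib.order_twist, hou,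
    Finset.sum_const, Finset.card_range, nsmul_eq_mul] at h2
  rw [ord_cInf]
  have hpq : ((p * q * (p * q) : ℕ) : ℤ) ≠ 0 := by
    exact_mod_cast Nat.mul_ne_zero (Nat.mul_ne_zero (NeZero.ne p) (NeZero.ne q))
      (Nat.mul_ne_zero (NeZero.ne p) (NeZero.ne q))
  have h3 : ((p * q * (p * q) : ℕ) : ℤ) * ((gN p hp q : FB p) : LaurentSeries Qb).order =
      ((p * q * (p * q) : ℕ) : ℤ) * (((q : ℤ) + 1) * (1 - (p : ℤ))) := by
    have h2' : ((p * q * (p * q) : ℕ) : ℤ) * ((gN p hp q : FB p) : LaurentSeries Qb).order =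
        ((q * (p * q * (p * q)) : ℕ) : ℤ) * (1 - (p : ℤ)) +
          (q : ℤ) * (((p * p * q : ℕ) : ℤ) * (1 - (p : ℤ))) := h2
    rw [h2']
    push_cast
    ring
  exact mul_left_cancel₀ hpq h3

include hq hqp in
/-- **`T_q D₀ = (q + 1) D₀`** as divisors, `D₀ = (0) - (∞)` -/
theorem correspondence_D0 :
    haveI := hasPrincipalDivisors_FB (p * q)
    Divisor.correspondence (heckeBetaBar Qb p q) (heckeAlphaBar Qb p q)
      (heckeBetaBarIntegral p q) (heckeAlphaBarIntegral p q) (D0 p hp) =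
        ((q : ℤ) + 1) • D0 p hp := by
  haveI := hasPrincipalDivisors_FB (p * q)
  set T := Divisor.correspondence (heckeBetaBar Qb p q) (heckeAlphaBar Qb p q)
      (heckeBetaBarIntegral p q) (heckeAlphaBarIntegral p q) with hT
  have hp1 : ((p : ℤ) - 1) ≠ 0 := by
    have := hp.one_lt
    have : (1 : ℤ) < p := by exact_mod_cast this
    omega
  -- `div u = (p - 1) D₀`
  have hu : ∀ v : Place Qb (FB p), (((p : ℤ) - 1) • D0 p hp) v = v.ord (uX p hp) := by
    intro v
    have h := cuspidal_div p hp (uX_ne_zero p hp) (uX_mem_regAway p hp) (uX_inv_mem_regAway p hp) v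
    rw [ord_cInf_uX] at h
    rw [← h]
    congr 2
    ring
  -- `div g = (q + 1)(p - 1) D₀`
  have hg : ∀ v : Place Qb (FB p),
      ((((q : ℤ) + 1) * ((p : ℤ) - 1)) • D0 p hp) v = v.ord (gN p hp q) := by
    intro v
    have h := cuspidal_div p hp (gN_ne_zero p hp q) (gN_mem_regAway p hp q hq)
      (gN_inv_mem_regAway p hp q hq) v
    rw [ord_cInf_gN p hp q hq hqp] at h
    rw [← h]
    congr 2
    ring
  have hTu : ∀ v : Place Qb (FB p), T (((p : ℤ) - 1) • D0 p hp) v = v.ord (gN p hp q) := fun v =>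
    Fermat.Agent.S37lib.ES.correspondence_apply_eq_ord (heckeBetaBar Qb p q) (heckeAlphaBar Qb p q)
      (heckeBetaBarIntegral p q) (heckeAlphaBarIntegral p q) (finiteAlong_alpha p q)
      (normFormulaAlong_alpha p q) (uX_ne_zero p hp) hu v
  have h1 : T (((p : ℤ) - 1) • D0 p hp) = (((q : ℤ) + 1) * ((p : ℤ) - 1)) • D0 p hp := by
    ext v
    rw [hTu v, hg v]
  rw [map_zsmul, mul_comm, mul_smul] at h1
  exact smul_right_injective _ hp1 h1

include hp in
/-- **the cuspidal class is an Eisenstein eigenvector** -/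
theorem isEis_ptClass : IsEis (ptClass (cZero p hp) (cInf p)) := by
  intro ℓ hℓp
  haveI : NeZero (ℓ : ℕ) := ⟨ℓ.2.ne_zero⟩
  haveI := hasPrincipalDivisors_FB (p * (ℓ : ℕ))
  have hndvd : ¬ (ℓ : ℕ) ∣ p := fun h => hℓp ((Nat.prime_dvd_prime_iff_eq ℓ.2 hp).mp h)
  show Fermat.Agent.S29lib.H.TJ p ℓ _ = _
  rw [Fermat.Agent.S29lib.H.TJ_of_not_dvd p hndvd, ptClass_cusps]
  have h1 : Fermat.Agent.S29lib.H.heckeStd p (ℓ : ℕ) (Pic0.mk ⟨D0 p hp, D0_mem_degZero p hp⟩) =
      Pic0.mk (Pic0.degZeroCorrespondence (heckeBetaBar Qb p ℓ) (heckeAlphaBar Qb p ℓ)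
        (heckeBetaBarIntegral p ℓ) (heckeAlphaBarIntegral p ℓ) (fundamentalIdentityAlong_beta p ℓ)
        ⟨D0 p hp, D0_mem_degZero p hp⟩) := rfl
  rw [h1]
  have h2 : Pic0.degZeroCorrespondence (heckeBetaBar Qb p ℓ) (heckeAlphaBar Qb p ℓ)
        (heckeBetaBarIntegral p ℓ) (heckeAlphaBarIntegral p ℓ) (fundamentalIdentityAlong_beta p ℓ)
        ⟨D0 p hp, D0_mem_degZero p hp⟩ =
      (((1 + (ℓ : ℕ) : ℕ) : ℤ)) • (⟨D0 p hp, D0_mem_degZero p hp⟩ :
        Divisor.degZero (K := Qb) (F := FB p)) := by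
    apply Subtype.ext
    show Divisor.correspondence (heckeBetaBar Qb p (ℓ : ℕ)) (heckeAlphaBar Qb p (ℓ : ℕ))
      (heckeBetaBarIntegral p (ℓ : ℕ)) (heckeAlphaBarIntegral p (ℓ : ℕ)) (D0 p hp) =
        (((1 + (ℓ : ℕ) : ℕ) : ℤ)) • D0 p hp
    rw [correspondence_D0 p hp (ℓ : ℕ) ℓ.2 hndvd]
    congr 1
    push_cast
    ring
  rw [h2]
  rfl

end Fermat.Agent.S15lib.Cusp
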