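/-
S15lib / Cusp / Genus (helper1).  Project E, block CUSP.

`[(0) - (∞)] ≠ 0` on `X₀(p)` for `p ∉ {2, 3, 5, 7, 13}`: a function with a single simple pole forces
genus `0` (Riemann's theorem, `IsCurveOfGenus`), whereas `12 g = p + 1 - 3 ν₂ - 4 ν₃ > 0`.
-/
import Mathlib
import Fermat.Agent.S15lib.Cusp.Unit
import Fermat.Agent.S18lib.Gin0.Genus
import Fermat.Agent.S18lib.Gin0.RH

set_option autoImplicit false
set_option linter.unusedSectionVars false
set_option linter.style.haveILetI false

noncomputable section

namespace Fermat.Agent.S15lib.Cusp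

open AlgebraicCurve ModularCurve Fermat.Agent.S18lib

local notation "Qb" => AlgebraicClosure ℚ

/-! ### a simple pole forces genus zero -/

section Generic

variable {K F : Type*} [Field K] [Field F] [Algebra K F]

theorem genus_eq_zero_of_simple_pole {g : ℕ} (hF : IsCurveOfGenus K F g) (P : Place K F) (f : F)
    (hP : P.ord f = -1) (hreg : ∀ v : Place K F, v ≠ P → 0 ≤ v.ord f) : g = 0 := by
  classical
  have hf0 : f ≠ 0 := by
    rintro rfl
    rw [Place.ord_zero] at hP
    omega
  -- `f` is transcendental
  have htr : Transcendental K f := by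
    intro halg
    have := Fermat.Agent.ProgramR.FF.ord_eq_zero_of_isAlgebraic P halg
    omega
  set n : ℕ := 2 * g with hn
  set E : Divisor K F := Finsupp.single P (n : ℤ) with hE
  have hdegE : Divisor.degree E = n := by
    rw [hE, Divisor.degree_single, hF.deg_eq_one P]
    simp
  have hmem : ∀ i : Fin (n + 1), f ^ (i : ℕ) ∈ riemannRochSpace E := by
    intro i
    rw [mem_riemannRochSpace_iff]
    intro v
    right
    have hpow : v.ord (f ^ (i : ℕ)) = (i : ℕ) * v.ord f := by
      have := v.ord_zpow f (i : ℕ)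
      rwa [zpow_natCast] at this
    rw [hpow]
    by_cases hv : v = P
    · subst hv
      rw [hE, Finsupp.single_eq_same, hP]
      have : ((i : ℕ) : ℤ) ≤ n := by exact_mod_cast Nat.lt_succ_iff.mp i.2
      linarith
    · rw [hE, Finsupp.single_eq_of_ne hv, neg_zero]
      exact mul_nonneg (Nat.cast_nonneg _) (hreg v hv)
  haveI := hF.finiteDimensional E
  have hli : LinearIndependent K (fun i : Fin (n + 1) =>
      (⟨f ^ (i : ℕ), hmem i⟩ : riemannRochSpace E)) := by
    have h1 : LinearIndependent K (fun i : ℕ => f ^ i) := by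
      have hinj : Function.Injective (Polynomial.aeval (R := K) f) :=
        transcendental_iff_injective.mp htr
      have h2 := (Polynomial.basisMonomials K).linearIndependent.map'
        (Polynomial.aeval (R := K) f).toLinearMap (LinearMap.ker_eq_bot.mpr hinj)
      have h3 : (⇑(Polynomial.aeval (R := K) f).toLinearMap ∘ ⇑(Polynomial.basisMonomials K)) =
          fun i : ℕ => f ^ i := by
        funext i
        simp
      rwa [h3] at h2
    have h4 : LinearIndependent K (fun i : Fin (n + 1) => f ^ (i : ℕ)) :=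
      h1.comp (fun i : Fin (n + 1) => (i : ℕ)) Fin.val_injective
    exact LinearIndependent.of_comp (riemannRochSpace E).subtype h4
  have hcard := hli.fintype_card_le_finrank
  rw [Fintype.card_fin] at hcard
  have heq := hF.riemann_eq E (by rw [hdegE, hn]; push_cast; omega)
  rw [hdegE] at heq
  have : ((n + 1 : ℕ) : ℤ) ≤ (n : ℤ) + 1 - g := by
    rw [← heq]
    exact_mod_cast hcard
  push_cast at this
  omega

end Generic

/-! ### the numerics of the genus of `X₀(p)` -/

section Numerics

theorem cuspCount_prime {p : ℕ} (hp : p.Prime) : cuspCount p = 2 := by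
  unfold cuspCount
  rw [hp.divisors, Finset.sum_pair hp.one_lt.ne, Nat.div_one, Nat.div_self hp.pos,
    Nat.gcd_one_left, Nat.gcd_one_right, Nat.totient_one]

/-- a monic quadratic over a field has at most two roots -/
theorem card_quadratic_roots_le {K : Type*} [Field K] [Fintype K] [DecidableEq K] (a b : K) :
    Nat.card {x : K // x ^ 2 + a * x + b = 0} ≤ 2 := by
  classical
  set P : Polynomial K := Polynomial.X ^ 2 + Polynomial.C a * Polynomial.X + Polynomial.C b with hP
  have hdeg : P.natDegree = 2 := by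
    rw [hP]
    compute_degree!
  have hP0 : P ≠ 0 := by
    intro h
    rw [h, Polynomial.natDegree_zero] at hdeg
    omega
  rw [Nat.card_eq_fintype_card, Fintype.card_subtype]
  have hsub : (Finset.univ.filter fun x : K => x ^ 2 + a * x + b = 0) ⊆ P.roots.toFinset := by
    intro x hx
    rw [Finset.mem_filter] at hx
    rw [Multiset.mem_toFinset, Polynomial.mem_roots hP0, Polynomial.IsRoot, hP]
    simp only [Polynomial.eval_add, Polynomial.eval_pow, Polynomial.eval_X, Polynomial.eval_mul,
      Polynomial.eval_C]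
    exact hx.2
  calc _ ≤ P.roots.toFinset.card := Finset.card_le_card hsub
    _ ≤ Multiset.card P.roots := Multiset.toFinset_card_le _
    _ ≤ P.natDegree := Polynomial.card_roots' P
    _ = 2 := hdeg

theorem nuTwo_le_two {p : ℕ} (hp : p.Prime) : nuTwo p ≤ 2 := by
  haveI : Fact p.Prime := ⟨hp⟩
  have h := card_quadratic_roots_le (K := ZMod p) 0 1
  unfold nuTwo
  simpa using h

theorem nuThree_le_two {p : ℕ} (hp : p.Prime) : nuThree p ≤ 2 := by
  haveI : Fact p.Prime := ⟨hp⟩
  have h := card_quadratic_roots_le (K := ZMod p) 1 1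
  unfold nuThree
  simpa using h

theorem nuTwo_eleven : nuTwo 11 = 0 := by
  unfold nuTwo
  rw [Nat.card_eq_fintype_card]
  decide

theorem nuThree_eleven : nuThree 11 = 0 := by
  unfold nuThree
  rw [Nat.card_eq_fintype_card]
  decide

/-- the primes outside `{2, 3, 5, 7, 13}` are `11` and the primes `≥ 17` -/
theorem eleven_or_ge {p : ℕ} (hp : p.Prime) (hp' : p ∉ ({2, 3, 5, 7, 13} : Finset ℕ)) :
    p = 11 ∨ 17 ≤ p := by
  by_contra hcon
  push Not at hcon
  obtain ⟨h11, h17⟩ := hcon
  have h2 := hp.two_le
  simp only [Finset.mem_insert, Finset.mem_singleton, not_or] at hp'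
  obtain ⟨a2, a3, a5, a7, a13⟩ := hp'
  interval_cases p <;> first | omega | (exact absurd hp (by norm_num))

end Numerics

/-! ### the cuspidal class is nontrivial -/

section Modular

variable (p : ℕ) [NeZero p] (hp : p.Prime)

include hp in
theorem genus_pos (hp' : p ∉ ({2, 3, 5, 7, 13} : Finset ℕ)) {g : ℕ} (hRH : Gin0.RHFormula p g) :
    0 < g := by
  have h := Gin0.twelve_mul_genus_sub_one p hRH
  rw [dedekindPsi_prime hp, cuspCount_prime hp] at h
  rcases eleven_or_ge hp hp' with rfl | h17
  · rw [nuTwo_eleven, nuThree_eleven] at h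
    push_cast at h
    omega
  · have h2 := nuTwo_le_two hp
    have h3 := nuThree_le_two hp
    have h2' : (nuTwo p : ℤ) ≤ 2 := by exact_mod_cast h2
    have h3' : (nuThree p : ℤ) ≤ 2 := by exact_mod_cast h3
    have h17' : (17 : ℤ) ≤ p := by exact_mod_cast h17
    push_cast at h
    omega

/-- **`[(0) - (∞)] ≠ 0`** for `p ∉ {2, 3, 5, 7, 13}` -/
theorem ptClass_cusps_ne_zero (hp' : p ∉ ({2, 3, 5, 7, 13} : Finset ℕ)) :
    ptClass (cZero p hp) (cInf p) ≠ 0 := by
  intro h0
  rw [ptClass_cusps] at h0
  have h1 := (QuotientAddGroup.eq_zero_iff _).1 h0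
  rw [AddSubgroup.mem_addSubgroupOf] at h1
  obtain ⟨f, hf0, hf⟩ := h1
  obtain ⟨g, hF, hRH⟩ := Gin0.exists_isCurveOfGenus_FBar p
  have hg := genus_pos p hp hp' hRH
  have hzero := genus_eq_zero_of_simple_pole hF (cInf p) f (by
      rw [← hf (cInf p)]
      exact D0_cInf p hp) (fun v hv => by
      rw [← hf v]
      by_cases h2 : v = cZero p hp
      · subst h2
        show (0 : ℤ) ≤ D0 p hp (cZero p hp)
        rw [D0_cZero]
        norm_num
      · show (0 : ℤ) ≤ D0 p hp v
        rw [D0_of_ne p hp hv h2])
  omega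

end Modular

end Fermat.Agent.S15lib.Cusp
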