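/-
S15lib / Cusp / Main (helper1).  Project E, block CUSP.

**`CuspStmt`** of `S15lib/Iface.lean`: the two cusps `∞`, `0` of `X₀(p)` as Galois-fixed places of
`FBar p` and the cuspidal class `c = [(0) - (∞)]`: `c ≠ 0`, `(p - 1) c = 0`, `T_q c = (1 + q) c`.
-/
import Mathlib
import Fermat.Agent.S15lib.Iface
import Fermat.Agent.S15lib.Cusp.Genus
import Fermat.Agent.S15lib.Cusp.Eis

set_option autoImplicit false
set_option linter.unusedSectionVars false
set_option linter.style.haveILetI false

noncomputable section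

namespace Fermat.Agent.S15lib.Cusp

open AlgebraicCurve ModularCurve

/-- **(CUSP)** -/
theorem cuspStmt : CuspStmt := by
  intro p hp hp'
  haveI : NeZero p := ⟨hp.ne_zero⟩
  exact ⟨cInf p, cZero p hp, isCuspInf_cInf p, isCuspZero_cZero p hp, gal_smul_cInf p,
    gal_smul_cZero p hp, ptClass_cusps_ne_zero p hp hp', sub_one_nsmul_ptClass p hp,
    isEis_ptClass p hp⟩

end Fermat.Agent.S15lib.Cusp
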